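/-
S44 / DEPTH, final assembly (owner helper253), part 2: glue over ABSTRACT constant fields
`K₀ ⊆ K₁ ⊆ K ⊆ ℚ̄`: base change data, the tower, automorphisms, descent of relations.
-/
import Fermat.Agent.S44.Depth.Inst.GL.Model
import Fermat.Agent.S44.Depth.Inst.GL.Span
import Fermat.Agent.S44.Depth.Inst.GL.PowDesc

set_option autoImplicit false
set_option linter.style.haveILetI false
set_option linter.unusedSectionVars false

noncomputable section

namespace Fermat.Agent.S44.Depth.Inst.Asm

open ModularCurve AlgebraicCurve Fermat.Agent.S24 Fermat.Agent.GAL Fermat.Agent.S44.X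
  Fermat.Agent.Lib.InertiaField Fermat.Agent.S18.Descent Fermat.Agent.BAD.Bridge
  Fermat.Agent.S28.Export Fermat.Agent.S36.BP Fermat.Agent.BAD.LevelQ.Mod
open Fermat.Agent.S18 (IsUnif)

section One

variable (K : Type*) [Field K] [Algebra ℚ K]

theorem charZero_FK (N : ℕ) : CharZero (FK K N) :=
  haveI : CharZero K := algebraRat.charZero K
  charZero_of_injective_algebraMap (algebraMap K (FK K N)).injective

variable {K}

theorem gal_const (τ : K ≃+* K) (N : ℕ) (c : K) :
    gal τ N (algebraMap K (FK K N) c) = algebraMap K (FK K N) (τ c) := by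
  rw [gal_apply, gam]
  exact baseChangeMap_algebraMap (τ : K →+* K) c

variable [Algebra K S44.Qb]

theorem bcK_injective (N : ℕ) : Function.Injective (bcK K N) := (bcK K N).injective

/-- descent of a relation modulo `n`-th powers -/
theorem rel_descend [Algebra.IsAlgebraic K S44.Qb] (N n : ℕ) (hn : n ≠ 0) (a b : FK K N)
    (ha : a ≠ 0) (hb : b ≠ 0) (v : FN N) (h : bcK K N a = bcK K N b * v ^ n) :
    ∃ (c : K) (g : FK K N), a = b * algebraMap K (FK K N) c * g ^ n := by
  have hb' : bcK K N b ≠ 0 := (map_ne_zero _).2 hb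
  obtain ⟨c, g, -, -, e⟩ := exists_const_mul_pow K N n hn (a / b) (div_ne_zero ha hb) v (by
    rw [map_div₀, h, mul_div_cancel_left₀ _ hb'])
  refine ⟨c, g, ?_⟩
  rw [mul_assoc, ← e, mul_div_cancel₀ _ hb]

end One

section Two

variable (K K' : Type*) [Field K] [Field K'] [Algebra ℚ K] [Algebra ℚ K'] [Algebra K K']
  [Algebra K S44.Qb] [Algebra K' S44.Qb] [IsScalarTower K K' S44.Qb]

omit [Algebra K S44.Qb] [Algebra K' S44.Qb] [IsScalarTower K K' S44.Qb] in
theorem algebraMap_algFK (N : ℕ) (z : FK K N) :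
    letI := algFK K K' N
    algebraMap (FK K N) (FK K' N) z = baseChangeMap (modularFunctionFieldFull N) (algebraMap K K') z :=
  rfl

theorem bcData_abs [Algebra.IsAlgebraic K K'] {A₀ : ValuationSubring K} {ϖ₀ : K}
    {A' : ValuationSubring K'} {ϖ : K'} {e : ℕ} {a : ℕ → K} (hU : IsUnif A₀ ϖ₀)
    (hE : IsEis A₀ ϖ₀ ϖ e a) (hext : Ext A₀ A') (N : ℕ) :
    letI := algFK K K' N
    BCData A₀ ϖ₀ A' ϖ e a (FK K N) (FK K' N) := by
  let _ := algFK K K' N
  refine ⟨fun c => ?_, hU, hE, hext, spanF K K' N ϖ e hE.span⟩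
  rw [algebraMap_algFK]
  exact (baseChangeMap_algebraMap (algebraMap K K') c).symm

end Two

end Fermat.Agent.S44.Depth.Inst.Asm

end
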