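/-
S44 / DEPTH, final assembly (owner helper253), part 3: application of `depth_main`, `depth_tame`,
`depth_smooth` over ABSTRACT constant fields `K₀ ⊆ K₁ ⊆ K ⊆ ℚ̄`.
-/
import Fermat.Agent.S44.Depth.Inst.Asm.Glue
import Fermat.Agent.S44.Depth.Main.Main
import Fermat.Agent.S44.Depth.Main.Easy

set_option autoImplicit false
set_option linter.style.haveILetI false
set_option linter.unusedSectionVars false

noncomputable section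

namespace Fermat.Agent.S44.Depth.Inst.Asm

open ModularCurve AlgebraicCurve Fermat.Agent.S24 Fermat.Agent.GAL Fermat.Agent.S44.X
  Fermat.Agent.Lib.InertiaField Fermat.Agent.S18.Descent Fermat.Agent.BAD.Bridge
  Fermat.Agent.S28.Export Fermat.Agent.S36.BP Fermat.Agent.BAD.LevelQ.Mod
open Fermat.Agent.S18 (IsUnif)

private theorem alg_toric {F : Type*} [Field F] (U h G g : F) (m p : ℕ) (hg : g ≠ 0) :
    U ^ m * h ^ p * G ^ p = (U * g ^ p) ^ m * (h * G / g ^ m) ^ p := by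
  have h1 : (g ^ p) ^ m = (g ^ m) ^ p := by rw [← pow_mul, ← pow_mul, mul_comm]
  have h2 : (g ^ m) ^ p ≠ 0 := pow_ne_zero _ (pow_ne_zero _ hg)
  rw [div_pow, mul_pow, mul_pow, h1]
  field_simp

private theorem alg_wild {F : Type*} [Field F] (U₁ U₀ h G g₁ g₀ : F) (k p : ℕ) (hg₁ : g₁ ≠ 0) (hg₀ : g₀ ≠ 0) :
    U₁ * U₀ ^ k * h ^ p * G ^ p =
      U₁ * g₁ ^ p * (U₀ * g₀ ^ p) ^ k * (h * G / (g₁ * g₀ ^ k)) ^ p := by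
  have h1 : (g₀ ^ p) ^ k = (g₀ ^ k) ^ p := by rw [← pow_mul, ← pow_mul, mul_comm]
  have h2 : (g₀ ^ k) ^ p ≠ 0 := pow_ne_zero _ (pow_ne_zero _ hg₀)
  have h3 : g₁ ^ p ≠ 0 := pow_ne_zero _ hg₁
  rw [div_pow, mul_pow, mul_pow, mul_pow, h1]
  field_simp

variable (K₀ K₁ K : Type) [Field K₀] [Field K₁] [Field K] [Algebra ℚ K₀] [Algebra ℚ K₁]
  [Algebra ℚ K] [Algebra K₀ S44.Qb] [Algebra K₁ S44.Qb] [Algebra K S44.Qb] [Algebra K₀ K₁]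
  [Algebra K₀ K] [Algebra K₁ K] [IsScalarTower K₀ K₁ S44.Qb] [IsScalarTower K₀ K S44.Qb]
  [IsScalarTower K₁ K S44.Qb] [IsScalarTower K₀ K₁ K]
  [Algebra.IsAlgebraic K₁ S44.Qb] [Algebra.IsAlgebraic K S44.Qb]
  [Algebra.IsAlgebraic K₀ K₁] [Algebra.IsAlgebraic K₀ K]

variable {K₀ K₁ K} {N : ℕ} {A₀ : ValuationSubring K₀} {Vi₀ V0₀ : ValuationSubring (FK K₀ N)}
  {x₀ y₀ : FK K₀ N} {Smi Sm0 Nd : Set (Subring (FK K₀ N))} {p : ℕ}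

/-- the relation for the toric class -/
theorem rel_toric (hp : p ≠ 0) (σ₁ : K₁ ≃+* K₁) (σ : S44.GQ)
    (hσ₁ : ∀ z : K₁, algebraMap K₁ S44.Qb (σ₁ z) = σ (algebraMap K₁ S44.Qb z))
    {U₀ g₀ : FN N} {u₀ : FK K₁ N} (hu₀ : u₀ ≠ 0) (hg₀ : g₀ ≠ 0)
    (hb₀ : bcK K₁ N u₀ = U₀ * g₀ ^ p) {m : ℕ} (hrel : ∃ h : FN N, E.galF N σ U₀ = U₀ ^ m * h ^ p) :
    ∃ (c : K₁) (g : FK K₁ N), gal σ₁ N u₀ = u₀ ^ m * algebraMap K₁ (FK K₁ N) c * g ^ p := by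
  obtain ⟨h, hh⟩ := hrel
  refine rel_descend N p hp _ _ ((map_ne_zero _).2 hu₀) (pow_ne_zero _ hu₀)
    (h * E.galF N σ g₀ / g₀ ^ m) ?_
  rw [bcK_gal K₁ N σ₁ σ hσ₁, map_pow, hb₀, map_mul, map_pow, hh]
  exact alg_toric _ _ _ _ _ _ hg₀

/-- the relation for the class `u` -/
theorem rel_wild (hp : p ≠ 0) (τK : K ≃+* K) (τ : S44.GQ)
    (hτK : ∀ z : K, algebraMap K S44.Qb (τK z) = τ (algebraMap K S44.Qb z))
    {U₀ g₀ : FN N} {u₀ : FK K₁ N} (hu₀ : u₀ ≠ 0) (hg₀ : g₀ ≠ 0)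
    (hb₀ : bcK K₁ N u₀ = U₀ * g₀ ^ p)
    {U₁ g₁ : FN N} {u : FK K N} (hu : u ≠ 0) (hg₁ : g₁ ≠ 0) (hb₁ : bcK K N u = U₁ * g₁ ^ p)
    {k : ℕ} (hrel : ∃ h : FN N, E.galF N τ U₁ = U₁ * U₀ ^ k * h ^ p) :
    ∃ (c : K) (g : FK K N), gal τK N u =
      u * baseChangeMap (modularFunctionFieldFull N) (algebraMap K₁ K) u₀ ^ k *
        algebraMap K (FK K N) c * g ^ p := by
  obtain ⟨h, hh⟩ := hrel
  have hι : baseChangeMap (modularFunctionFieldFull N) (algebraMap K₁ K) u₀ ≠ 0 :=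
    (map_ne_zero _).2 hu₀
  refine rel_descend N p hp _ _ ((map_ne_zero _).2 hu) (mul_ne_zero hu (pow_ne_zero _ hι))
    (h * E.galF N τ g₁ / (g₁ * g₀ ^ k)) ?_
  rw [bcK_gal K N τK τ hτK, map_mul, map_pow,
    bcK_baseChangeMap K₁ K N (algebraMap K₁ K) (fun z => (IsScalarTower.algebraMap_apply K₁ K S44.Qb z).symm),
    hb₀, hb₁, map_mul, map_pow, hh]
  exact alg_wild _ _ _ _ _ _ _ _ hg₁ hg₀

/-- **The wild case** (application of `depth_main`). -/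
theorem red_wild_abs {A₁ : ValuationSubring K₁} {π : K₁} {e₁ : ℕ} {a₁ : ℕ → K₀}
    {AK : ValuationSubring K} {ϖ : K} {e : ℕ} {a : ℕ → K₀}
    (M₀ : NodalModel A₀ (p : K₀) 1 Vi₀ V0₀ x₀ y₀ Smi Sm0 Nd) (hp : p.Prime)
    (hpA : A₀.valuation (p : K₀) < 1)
    (hroot : ∀ c ∈ A₀, ∃ b ∈ A₀, A₀.valuation (c - b ^ p) < 1)
    (hE₁ : IsEis A₀ (p : K₀) π e₁ a₁) (hx₁ : Ext A₀ A₁)
    (hE : IsEis A₀ (p : K₀) ϖ e a) (hx : Ext A₀ AK) (he : ¬ p ^ 2 ∣ e)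
    -- the toric class
    (σ₁ : K₁ ≃+* K₁) (σ : S44.GQ)
    (hσ₁ : ∀ z : K₁, algebraMap K₁ S44.Qb (σ₁ z) = σ (algebraMap K₁ S44.Qb z))
    (hσ₀ : ∀ z : K₀, σ₁ (algebraMap K₀ K₁ z) = algebraMap K₀ K₁ z)
    {U₀ g₀ : FN N} {u₀ : FK K₁ N} (hu₀ : u₀ ≠ 0) (hg₀ : g₀ ≠ 0) (hd₀ : HorDiv K₁ p u₀)
    (hb₀ : bcK K₁ N u₀ = U₀ * g₀ ^ p) {m : ℕ} (hm : ¬ (p : ℤ) ∣ (m : ℤ) - 1)
    (hrel₀ : ∃ h : FN N, E.galF N σ U₀ = U₀ ^ m * h ^ p)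
    -- the wild automorphism
    (τK : K ≃+* K) (τ : S44.GQ)
    (hτK : ∀ z : K, algebraMap K S44.Qb (τK z) = τ (algebraMap K S44.Qb z))
    (hτ₀ : ∀ z : K₀, τK (algebraMap K₀ K z) = algebraMap K₀ K z)
    {δ : K} {c : ℕ} (hc : 1 ≤ c) (hτϖ : τK ϖ = ϖ * (1 + δ))
    (hδ : AK.valuation δ = AK.valuation ϖ ^ c)
    (hBR : AK.valuation (algebraMap K₁ K π) ≤ AK.valuation ϖ ^ (c + 1))
    -- the class
    {U₁ g₁ : FN N} {u : FK K N} (hu : u ≠ 0) (hg₁ : g₁ ≠ 0) (hd : HorDiv K p u)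
    (hb₁ : bcK K N u = U₁ * g₁ ^ p)
    (hrel : ∃ (k : ℕ) (h : FN N), E.galF N τ U₁ = U₁ * U₀ ^ k * h ^ p)
    {Vi : ValuationSubring (FK K N)}
    (hi : letI := algFK K₀ K N; Ext Vi₀ Vi) :
    letI := algFK K₀ K N
    ∃ b₀ : ℤ, ∀ R₀ ∈ Nd, ∃ b : ℤ, RedNode K Vi₀ Vi x₀ R₀ p u b ∧ (p : ℤ) ∣ b - b₀ := by
  letI := algFK K₀ K N
  letI := algFK K₀ K₁ N
  haveI := charZero_FK K₀ N
  obtain ⟨cst₀, h₀, hr₀⟩ := rel_toric hp.ne_zero σ₁ σ hσ₁ hu₀ hg₀ hb₀ hrel₀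
  obtain ⟨k, hk⟩ := hrel
  obtain ⟨cst, h, hr⟩ := rel_wild hp.ne_zero τK τ hτK hu₀ hg₀ hb₀ hu hg₁ hb₁ hk
  refine depth_main (K₁ := K₁) (F₁ := FK K₁ N) M₀ hp hpA hroot
    (bcData_abs K₀ K₁ M₀.unifA hE₁ hx₁ N) (bcData_abs K₀ K M₀.unifA hE hx N) he
    (baseChangeMap (modularFunctionFieldFull N) (algebraMap K₁ K)) (algebraMap K₁ K)
    (fun z => ?_) (fun c => baseChangeMap_algebraMap (algebraMap K₁ K) c)
    (gal σ₁ N) (fun z => gal_baseChangeMap K₀ K₁ N σ₁ (algebraMap K₀ K₁) hσ₀ z)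
    ⟨σ₁ π, gal_const σ₁ N π⟩ hu₀ hd₀ hm hr₀
    (gal τK N) (fun z => gal_baseChangeMap K₀ K N τK (algebraMap K₀ K) hτ₀ z) hc
    (by rw [gal_const, hτϖ]) hδ hBR hu hd hr hi
  apply Subtype.ext
  rw [algebraMap_algFK, algebraMap_algFK, coe_baseChangeMap, coe_baseChangeMap, coe_baseChangeMap,
    coeffMap_coeffMap]
  exact coeffMap_congr (RingHom.ext fun y => (IsScalarTower.algebraMap_apply K₀ K₁ K y).symm) _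

/-- **The tame case** (application of `depth_tame`). -/
theorem red_tame_abs {AK : ValuationSubring K} {ϖ : K} {e : ℕ} {a : ℕ → K₀}
    (M₀ : NodalModel A₀ (p : K₀) 1 Vi₀ V0₀ x₀ y₀ Smi Sm0 Nd) (hp : p.Prime)
    (hE : IsEis A₀ (p : K₀) ϖ e a) (hx : Ext A₀ AK) (he : ¬ p ∣ e)
    {u : FK K N} (hu : u ≠ 0) (hd : HorDiv K p u) {Vi : ValuationSubring (FK K N)}
    (hi : letI := algFK K₀ K N; Ext Vi₀ Vi) :
    letI := algFK K₀ K N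
    ∃ b₀ : ℤ, ∀ R₀ ∈ Nd, ∃ b : ℤ, RedNode K Vi₀ Vi x₀ R₀ p u b ∧ (p : ℤ) ∣ b - b₀ := by
  letI := algFK K₀ K N
  haveI := charZero_FK K₀ N
  exact depth_tame M₀ (bcData_abs K₀ K M₀.unifA hE hx N) hi hp he hu hd

/-- **The smooth points** (application of `depth_smooth`). -/
theorem red_sm_abs {AK : ValuationSubring K} {ϖ : K} {e : ℕ} {a : ℕ → K₀}
    (M₀ : NodalModel A₀ (p : K₀) 1 Vi₀ V0₀ x₀ y₀ Smi Sm0 Nd) (hp : p ≠ 0)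
    (hE : IsEis A₀ (p : K₀) ϖ e a) (hx : Ext A₀ AK)
    {u : FK K N} (hu : u ≠ 0) (hd : HorDiv K p u) {Vi : ValuationSubring (FK K N)}
    (hi : letI := algFK K₀ K N; Ext Vi₀ Vi) :
    letI := algFK K₀ K N
    ∀ R₀ ∈ Smi, RedSm K Vi₀ Vi R₀ p u := by
  letI := algFK K₀ K N
  haveI := charZero_FK K₀ N
  exact depth_smooth M₀ (bcData_abs K₀ K M₀.unifA hE hx N) hi hp hu hd

end Fermat.Agent.S44.Depth.Inst.Asm

end
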