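/-
S44 / DEPTH, final assembly (owner helper253), part 4: the abstract core applied to two intermediate
fields `K0 A ⊆ L₁ ⊆ L ⊆ ℚ̄` (kept as variables).
-/
import Fermat.Agent.S44.Depth.Inst.Asm.Core

set_option autoImplicit false
set_option linter.style.haveILetI false

noncomputable section

namespace Fermat.Agent.S44.Depth.Inst.Asm

open ModularCurve AlgebraicCurve Fermat.Agent.S24 Fermat.Agent.GAL Fermat.Agent.S44.X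
  Fermat.Agent.Lib.InertiaField Fermat.Agent.S18.Descent Fermat.Agent.BAD.Bridge
  Fermat.Agent.S28.Export Fermat.Agent.S36.BP Fermat.Agent.BAD.LevelQ.Mod
open Fermat.Agent.S18 (IsUnif)

/-- comparison of the valuations of `V.comap f` and of `V` -/
theorem comap_val_le {E F : Type*} [Field E] [Field F] (f : E →+* F) (V : ValuationSubring F)
    (x y : E) : (V.comap f).valuation x ≤ (V.comap f).valuation y ↔
      V.valuation (f x) ≤ V.valuation (f y) := by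
  rcases eq_or_ne y 0 with rfl | hy
  · simp
  · have hy' : f y ≠ 0 := (map_ne_zero f).2 hy
    have h1 : (V.comap f).valuation y ≠ 0 := (map_ne_zero _).2 hy
    have h2 : V.valuation (f y) ≠ 0 := (map_ne_zero _).2 hy'
    rw [← div_le_one₀ (zero_lt_iff.2 h1), ← div_le_one₀ (zero_lt_iff.2 h2), ← map_div₀, ← map_div₀,
      ← map_div₀, ValuationSubring.valuation_le_one_iff, ValuationSubring.valuation_le_one_iff]
    rfl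

variable {A : ValuationSubring S44.Qb}

theorem ext_AL (L : IntermediateField (K0 A) S44.Qb) : Ext (A0 A) (AL A L) := fun _ => Iff.rfl

theorem resL_fix (L : IntermediateField (K0 A) S44.Qb) {τ : S44.GQ} (hτ : τ ∈ Iner A)
    (h : ∀ z ∈ L, τ z ∈ L) (h' : ∀ z ∈ L, τ⁻¹ z ∈ L) (z : K0 A) :
    resL L τ h h' (algebraMap (K0 A) L z) = algebraMap (K0 A) L z :=
  Subtype.ext ((mem_K0_iff A (z : S44.Qb)).mp z.2 τ hτ)

variable {N : ℕ} {Vi₀ V0₀ : ValuationSubring (FK (K0 A) N)}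
  {x₀ y₀ : FK (K0 A) N} {Smi Sm0 Nd : Set (Subring (FK (K0 A) N))} {p : ℕ}

theorem red_wild (L₁ L : IntermediateField (K0 A) S44.Qb) (hLL : L₁ ≤ L)
    {π : L₁} {e₁ : ℕ} {a₁ : ℕ → K0 A} {ϖ : L} {e : ℕ} {a : ℕ → K0 A}
    (M₀ : NodalModel (A0 A) (p : K0 A) 1 Vi₀ V0₀ x₀ y₀ Smi Sm0 Nd) (hp : p.Prime)
    (hpA : (A0 A).valuation (p : K0 A) < 1)
    (hroot : ∀ c ∈ A0 A, ∃ b ∈ A0 A, (A0 A).valuation (c - b ^ p) < 1)
    (hE₁ : IsEis (A0 A) (p : K0 A) π e₁ a₁) (hE : IsEis (A0 A) (p : K0 A) ϖ e a)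
    (he : ¬ p ^ 2 ∣ e)
    -- the toric class
    {σ : S44.GQ} (hσ : σ ∈ Iner A) (hσL : ∀ z ∈ L₁, σ z ∈ L₁) (hσL' : ∀ z ∈ L₁, σ⁻¹ z ∈ L₁)
    {U₀ g₀ : FN N} {u₀ : FK L₁ N} (hu₀ : u₀ ≠ 0) (hg₀ : g₀ ≠ 0) (hd₀ : HorDiv L₁ p u₀)
    (hb₀ : bcK L₁ N u₀ = U₀ * g₀ ^ p) {m : ℕ} (hm : ¬ (p : ℤ) ∣ (m : ℤ) - 1)
    (hrel₀ : ∃ h : FN N, E.galF N σ U₀ = U₀ ^ m * h ^ p)
    -- the wild automorphism
    {τ : S44.GQ} (hτ : τ ∈ Iner A) (hτL : ∀ z ∈ L, τ z ∈ L) (hτL' : ∀ z ∈ L, τ⁻¹ z ∈ L)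
    {δ : L} {c : ℕ} (hc : 1 ≤ c) (hτϖ : τ (ϖ : S44.Qb) = ϖ * (1 + δ))
    (hδ : (AL A L).valuation δ = (AL A L).valuation ϖ ^ c)
    (hBR : A.valuation (π : S44.Qb) ≤ A.valuation (ϖ : S44.Qb) ^ (c + 1))
    -- the class
    {U₁ g₁ : FN N} {u : FK L N} (hu : u ≠ 0) (hg₁ : g₁ ≠ 0) (hd : HorDiv L p u)
    (hb₁ : bcK L N u = U₁ * g₁ ^ p)
    (hrel : ∃ (k : ℕ) (h : FN N), E.galF N τ U₁ = U₁ * U₀ ^ k * h ^ p)
    {Vi : ValuationSubring (FK L N)}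
    (hi : letI := algFK (K0 A) L N; Ext Vi₀ Vi) :
    letI := algFK (K0 A) L N
    ∃ b₀ : ℤ, ∀ R₀ ∈ Nd, ∃ b : ℤ, RedNode L Vi₀ Vi x₀ R₀ p u b ∧ (p : ℤ) ∣ b - b₀ := by
  letI : Algebra L₁ L := (IntermediateField.inclusion hLL).toRingHom.toAlgebra
  haveI : IsScalarTower L₁ L S44.Qb := IsScalarTower.of_algebraMap_eq fun _ => rfl
  haveI : IsScalarTower (K0 A) L₁ L := IsScalarTower.of_algebraMap_eq fun _ => rfl
  refine red_wild_abs (K₀ := K0 A) (K₁ := L₁) (K := L) (A₁ := AL A L₁) (AK := AL A L) M₀ hp hpA hroot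
    hE₁ (ext_AL L₁) hE (ext_AL L) he
    (resL L₁ σ hσL hσL') σ (fun _ => rfl) (resL_fix L₁ hσ hσL hσL') hu₀ hg₀ hd₀ hb₀ hm hrel₀
    (resL L τ hτL hτL') τ (fun _ => rfl) (resL_fix L hτ hτL hτL') hc (Subtype.ext hτϖ) hδ ?_
    hu hg₁ hd hb₁ hrel hi
  rw [← map_pow]
  refine (comap_val_le (algebraMap L S44.Qb) A _ _).2 ?_
  rw [map_pow, map_pow]
  exact hBR

theorem red_tame (L : IntermediateField (K0 A) S44.Qb) {ϖ : L} {e : ℕ} {a : ℕ → K0 A}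
    (M₀ : NodalModel (A0 A) (p : K0 A) 1 Vi₀ V0₀ x₀ y₀ Smi Sm0 Nd) (hp : p.Prime)
    (hE : IsEis (A0 A) (p : K0 A) ϖ e a) (he : ¬ p ∣ e)
    {u : FK L N} (hu : u ≠ 0) (hd : HorDiv L p u) {Vi : ValuationSubring (FK L N)}
    (hi : letI := algFK (K0 A) L N; Ext Vi₀ Vi) :
    letI := algFK (K0 A) L N
    ∃ b₀ : ℤ, ∀ R₀ ∈ Nd, ∃ b : ℤ, RedNode L Vi₀ Vi x₀ R₀ p u b ∧ (p : ℤ) ∣ b - b₀ :=
  red_tame_abs (K₀ := K0 A) (K := L) (AK := AL A L) M₀ hp hE (ext_AL L) he hu hd hi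

theorem red_sm (L : IntermediateField (K0 A) S44.Qb) {ϖ : L} {e : ℕ} {a : ℕ → K0 A}
    (M₀ : NodalModel (A0 A) (p : K0 A) 1 Vi₀ V0₀ x₀ y₀ Smi Sm0 Nd) (hp : p ≠ 0)
    (hE : IsEis (A0 A) (p : K0 A) ϖ e a)
    {u : FK L N} (hu : u ≠ 0) (hd : HorDiv L p u) {Vi : ValuationSubring (FK L N)}
    (hi : letI := algFK (K0 A) L N; Ext Vi₀ Vi) :
    letI := algFK (K0 A) L N
    ∀ R₀ ∈ Smi, RedSm L Vi₀ Vi R₀ p u :=
  red_sm_abs (K₀ := K0 A) (K := L) (AK := AL A L) M₀ hp hE (ext_AL L) hu hd hi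

end Fermat.Agent.S44.Depth.Inst.Asm

end
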