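/-
S44 / DEPTH, final assembly (owner helper253): the number theoretic node consumed by the assembly.
-/
import Fermat.Agent.S44.Depth.Inst.Defs
import Fermat.Agent.S44.Depth.BCDefs

set_option autoImplicit false

noncomputable section

namespace Fermat.Agent.S44.Depth.Inst.Asm

open Fermat.Agent.Lib.InertiaField Fermat.Agent.S44.X

/-- **Node Tower** (number theory of `K₀ ⊆ K₀(μ_p) ⊆ K₀(E[p])`): Eisenstein generators `π`, `ϖ`;
`p² ∤ e`; if `p ∣ e` there is a wild element `τ` of inertia of depth `c`, and either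
`v(π) ≥ (c + 1) v(ϖ)` or `τ` realises the first alternative of `NodeSlopeD`. -/
def NodeTower : Prop :=
  ∀ (P : FreyPackage), (P.p : ℤ) ∣ P.a * P.b * P.c →
    ∀ A : ValuationSubring S44.Qb, A.LiesOverPrime P.p →
    ∃ (π : Lmu A P.p) (e₁ : ℕ) (a₁ : ℕ → K0 A) (ϖ : LE P A) (e : ℕ) (a : ℕ → K0 A),
      IsEis (A0 A) (P.p : K0 A) π e₁ a₁ ∧ IsEis (A0 A) (P.p : K0 A) ϖ e a ∧ ¬ P.p ^ 2 ∣ e ∧
      (¬ P.p ∣ e ∨ ∃ τ ∈ Iner A, ∃ (δ : LE P A) (c : ℕ), 1 ≤ c ∧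
        τ (ϖ : S44.Qb) = ϖ * (1 + δ) ∧
        (AL A (LE P A)).valuation δ = (AL A (LE P A)).valuation ϖ ^ c ∧
        (A.valuation (π : S44.Qb) ≤ A.valuation (ϖ : S44.Qb) ^ (c + 1) ∨
          ((∃ x : S13.Vp P, τ • x ≠ x) ∧
            ∀ z ∈ A, (∀ σ ∈ stabE P A, σ z = z) → DeepD A P.p (τ z - z))))

end Fermat.Agent.S44.Depth.Inst.Asm

end
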