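/-
S44 / DEPTH, final assembly (owner helper253), part 1: from the conclusions of the abstract theorems
(`RedNode` at all nodes with constant slope, `RedSm` at all smooth points) to the second alternative
of `NodeSlopeD`.
-/
import Fermat.Agent.S44.Depth.Inst.TR.Main

set_option autoImplicit false

noncomputable section

namespace Fermat.Agent.S44.Depth.Inst.Asm

open ModularCurve AlgebraicCurve Fermat.Agent.S24 Fermat.Agent.GAL Fermat.Agent.S44.X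
  Fermat.Agent.Lib.InertiaField Fermat.Agent.S18.Descent Fermat.Agent.BAD.Bridge
  Fermat.Agent.S28.Export Fermat.Agent.S36.BP Fermat.Agent.BAD.LevelQ.Mod
open Fermat.Agent.S18 (IsUnif)

variable {A : ValuationSubring S44.Qb} {p : ℕ} [NeZero p] {M' : ℕ} [NeZero M']

theorem slope_of_red (hR : NodeRed) (hp : p.Prime) (hpM : ¬ p ∣ M') (hc : Nat.Coprime p 4)
    (hA : A.LiesOverPrime p) (L : IntermediateField (K0 A) S44.Qb)
    {Vi₀ V0₀ : ValuationSubring (FK (K0 A) (M' * 4 * p))} {x₀ y₀ : FK (K0 A) (M' * 4 * p)}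
    {Smi Sm0 Nd : Set (Subring (FK (K0 A) (M' * 4 * p)))}
    (hG₀ : IsGauss A Vi₀) (M₀ : NodalModel (A0 A) (p : K0 A) 1 Vi₀ V0₀ x₀ y₀ Smi Sm0 Nd)
    (hx : ∃ c : S44.Qb, c ≠ 0 ∧
      bcK (K0 A) (M' * 4 * p) x₀ = algebraMap S44.Qb (FN (M' * 4 * p)) c * xU p M' hc)
    (hpts : ∀ w : Place (kA A) (Fk A (M' * 4)), ∃ R₀, Centred A (M' * 4) p w R₀ ∧
      ((R₀ ∈ Nd ∧ 0 ≤ w.ord (jk A (M' * 4))) ∨
        (R₀ ∈ Smi ∧ (0 ≤ w.ord (jk A (M' * 4)) → RUnit R₀ x₀))))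
    {Vi : ValuationSubring (FK L (M' * 4 * p))} (hG : IsGauss A Vi)
    {U : FN (M' * p)} {ubar : Fk A M'} (hU : IsRed A U (ubar : LaurentSeries (kA A)))
    {xbar : Fk A (M' * 4)} (hxb : IsRed A (xU p M' hc) (xbar : LaurentSeries (kA A)))
    {u : FK L (M' * 4 * p)} {g : FN (M' * 4 * p)} (hg : g ≠ 0)
    (hu : bcK L (M' * 4 * p) u = levelIncl (⟨4, by ring⟩ : M' * p ∣ M' * 4 * p) U * g ^ p)
    (hnd : letI := algFK (K0 A) L (M' * 4 * p)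
      ∃ b₀ : ℤ, ∀ R₀ ∈ Nd, ∃ b : ℤ, RedNode L Vi₀ Vi x₀ R₀ p u b ∧ (p : ℤ) ∣ b - b₀)
    (hsm : letI := algFK (K0 A) L (M' * 4 * p)
      ∀ R₀ ∈ Smi, RedSm L Vi₀ Vi R₀ p u) :
    ∃ c : ℤ,
      (∀ w : Place (kA A) (Fk A (M' * 4)), 0 ≤ w.ord (jk A (M' * 4)) →
        (p : ℤ) ∣ w.ord (inclFk A M' 4 ubar) - c * w.ord xbar) ∧
      (∀ w : Place (kA A) (Fk A (M' * 4)), w.ord (jk A (M' * 4)) < 0 →
        (p : ℤ) ∣ w.ord (inclFk A M' 4 ubar)) := by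
  obtain ⟨c, hc0, hxc⟩ := hx
  obtain ⟨b₀, hb₀⟩ := hnd
  refine ⟨b₀, fun w hw => ?_, fun w hw => ?_⟩
  · obtain ⟨R₀, hcen, h | h⟩ := hpts w
    · obtain ⟨b, hb, hdvd⟩ := hb₀ R₀ h.1
      have h1 := tr_node L hR hp hpM hc hA hG₀ hG M₀.x_i hc0 hxc hU hxb hg hu hcen
        (M₀.nd R₀ h.1).thri.le hb
      have h2 : (p : ℤ) ∣ (b - b₀) * w.ord xbar := Dvd.dvd.mul_right hdvd _
      have h3 := dvd_add h1 h2
      have e : w.ord (inclFk A M' 4 ubar) - b * w.ord xbar + (b - b₀) * w.ord xbar =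
          w.ord (inclFk A M' 4 ubar) - b₀ * w.ord xbar := by ring
      rwa [e] at h3
    · have h1 := tr_sm L hR hp hpM hc hA hG₀ hG hU hg hu hcen (M₀.smi R₀ h.1).thr.le (hsm R₀ h.1)
      have h2 := tr_x hR hp hpM hc hA hG₀ hc0 hxc hxb hcen (M₀.smi R₀ h.1).thr.le (h.2 hw)
      rw [h2, mul_zero, sub_zero]
      exact h1
  · obtain ⟨R₀, hcen, h | h⟩ := hpts w
    · exact absurd h.2 (not_le.2 hw)
    · exact tr_sm L hR hp hpM hc hA hG₀ hG hU hg hu hcen (M₀.smi R₀ h.1).thr.le (hsm R₀ h.1)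

end Fermat.Agent.S44.Depth.Inst.Asm

end
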